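import Fermat.Agent.H86.SS2.Emb3Defs
import Fermat.Agent.H17.ESD.PSTrunc

/-!
# P-SS2, row SS2-C1-RED (helper90): `ModelRedStatement q`

Reductions modulo an odd prime `q` of the integer series `Y1 = H - H1^q`, `Z = H2 - H`,
`X1 = H1 - H^q = q δ`, `X2 = H2 - H1^q = q δ(t^q)` (`H = t⁻¹ - 8 + …` the Hauptmodul of
level 4, `H1 = H(t^q)`, `H2 = H(t^(q²))`): `Ȳ1 ≠ 0`, `Z̄ ≠ 0`, `δ̄ ≠ 0`.

For `δ̄`: `θ δ̄ = (θ ū)^q - ū^(q-1) θ ū` (helper8).  If `δ̄ = 0` then `c = θ ū / ū` satisfies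
`c^q = c`, i.e. `c(t^q) = c`, so `c` is a constant `a`, and `n aₙ = a aₙ` for all `n`;
`a₋₁ = 1` gives `a = -1` and `a₀ = -8` gives `8 = 0` in `𝔽_q`.
-/

set_option autoImplicit false
set_option linter.style.haveILetI false

namespace Fermat.Agent.H90.SS2Red

open PowerSeries ModularCurve Fermat.Agent.H8.SS Fermat.Agent.H86.SS2

noncomputable section

/-! ### the coefficient `a₀ = -8` of the Hauptmodul -/

theorem coeff_one_mul (f g : ℤ⟦X⟧) :
    coeff 1 (f * g) = constantCoeff f * coeff 1 g + coeff 1 f * constantCoeff g := by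
  rw [PowerSeries.coeff_mul, Finset.Nat.antidiagonal_succ]
  simp

theorem coeff_one_dedekindEtaUnit : coeff 1 dedekindEtaUnit = -24 := by
  rw [Fermat.Agent.H17.ESD.dedekindEtaUnit_trunc.coeff_eq (m := 1) (by norm_num)]
  simp [PowerSeries.coeff_mul_X_pow', map_ofNat]

theorem coeff_one_expand_two (f : ℤ⟦X⟧) : coeff 1 (PowerSeries.expand 2 (by norm_num) f) = 0 :=
  PowerSeries.coeff_expand_of_not_dvd 2 (by norm_num) f (by norm_num)

theorem coeff_one_u2 : coeff 1 u2 = -24 := by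
  rw [u2, coeff_one_mul, constantCoeff_dedekindEtaUnit, coeff_one_dedekindEtaUnit,
    coeff_one_expand_two, PowerSeries.constantCoeff_expand,
    constantCoeff_dedekindEtaUnitInv]
  norm_num

theorem coeff_one_d4 : coeff 1 d4 = -8 := by
  rw [d4, map_add, coeff_one_u2]
  have : coeff 1 ((16 : ℤ⟦X⟧) * X) = 16 := by
    rw [show (1 : ℕ) = 0 + 1 from rfl, PowerSeries.coeff_succ_mul_X,
      PowerSeries.coeff_zero_eq_constantCoeff]
    simp [map_ofNat]
  rw [this]
  norm_num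

theorem coeff_one_d4Inv : coeff 1 d4Inv = 8 := by
  have h := congrArg (coeff 1) d4_mul_d4Inv
  rw [coeff_one_mul, constantCoeff_d4, constantCoeff_d4Inv, coeff_one_d4] at h
  simp at h
  linarith

theorem coeff_one_h4Num : coeff 1 h4Num = -8 := by
  rw [h4Num, coeff_one_mul, constantCoeff_d4Inv, coeff_one_d4Inv, map_sub, map_sub,
    coeff_one_expand_two, PowerSeries.constantCoeff_expand, constantCoeff_u2]
  have h1 : coeff 1 ((16 : ℤ⟦X⟧) * X * u2) = 16 := by
    rw [mul_assoc, mul_comm X u2, ← mul_assoc, show (1 : ℕ) = 0 + 1 from rfl,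
      PowerSeries.coeff_succ_mul_X, PowerSeries.coeff_zero_eq_constantCoeff, map_mul,
      constantCoeff_u2]
    simp [map_ofNat]
  have h2 : constantCoeff ((16 : ℤ⟦X⟧) * X * u2) = 0 := by
    simp
  rw [h1, h2]
  norm_num

/-- `H = t⁻¹ - 8 + …` -/
theorem h4S_coeff_zero (k : Type*) [CommRing k] : (h4S k).coeff 0 = -8 := by
  rw [h4S_eq, HahnSeries.coeff_single_mul, one_mul,
    show (0 : ℤ) - (-1) = ((1 : ℕ) : ℤ) by norm_num, HahnSeries.ofPowerSeries_apply_coeff,
    PowerSeries.coeff_map, coeff_one_h4Num]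
  simp

/-! ### series fixed by `t ↦ t^q` are constant -/

/-- A Laurent series with `c(t^q) = c`, `q ≥ 2`, has no nonconstant terms. -/
theorem coeff_eq_zero_of_qExpand_eq {k : Type*} [CommRing k] (q : ℕ) [NeZero q] (hq : 2 ≤ q)
    (c : LaurentSeries k) (h : qExpand k q c = c) : ∀ n : ℤ, n ≠ 0 → c.coeff n = 0 := by
  intro n
  induction' hm : n.natAbs using Nat.strong_induction_on with m ih generalizing n
  intro hn0
  by_cases hd : (q : ℤ) ∣ n
  · obtain ⟨j, rfl⟩ := hd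
    have hj0 : j ≠ 0 := by
      rintro rfl
      simp at hn0
    rw [← h, qExpand_coeff_mul]
    refine ih j.natAbs ?_ j rfl hj0
    rw [← hm, Int.natAbs_mul, Int.natAbs_natCast]
    have hjpos : 0 < j.natAbs := Int.natAbs_pos.mpr hj0
    nlinarith
  · rw [← h, qExpand_coeff_of_not_dvd q c hd]

/-- A Laurent series with `c(t^q) = c`, `q ≥ 2`, is constant. -/
theorem eq_C_of_qExpand_eq {k : Type*} [CommRing k] (q : ℕ) [NeZero q] (hq : 2 ≤ q)
    (c : LaurentSeries k) (h : qExpand k q c = c) : c = HahnSeries.C (c.coeff 0) := by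
  ext n
  rw [HahnSeries.C_apply, HahnSeries.coeff_single]
  split_ifs with hn
  · rw [hn]
  · exact coeff_eq_zero_of_qExpand_eq q hq c h n hn

theorem not_dvd_neg_one {q : ℕ} (hq : 2 ≤ q) : ¬ (q : ℤ) ∣ (-1 : ℤ) := by
  intro h
  have h1 : (q : ℤ) ∣ 1 := (Int.dvd_neg).mp h
  have h2 : q ∣ 1 := by exact_mod_cast h1
  have := Nat.le_of_dvd one_pos h2
  omega

/-! ### the main theorem -/

/-- `δ̄ ≠ 0`: the reduction of the Frobenius defect of the Hauptmodul is nonzero. -/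
theorem redQ_delta_ne_zero (q : ℕ) [NeZero q] [Fact q.Prime] (hq2 : q ≠ 2)
    (δ : LaurentSeries ℤ) (hδ : qExpand ℤ q (h4S ℤ) = h4S ℤ ^ q + (q : ℤ) • δ) :
    redQ q δ ≠ 0 := by
  have hq : q.Prime := Fact.out
  intro hδ0
  have hθ := theta_delta_mod q (h4S ℤ) δ hδ
  rw [hδ0, map_zero] at hθ
  have hu_eq : redQ q (h4S ℤ) = h4S (ZMod q) := coeffMap_h4S _
  rw [hu_eq] at hθ
  set u : LaurentSeries (ZMod q) := h4S (ZMod q) with hu
  set w : LaurentSeries (ZMod q) := theta u with hw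
  have hu1 : u.coeff (-1) = 1 := h4S_coeff_neg_one (ZMod q)
  have hu0 : u.coeff 0 = -8 := h4S_coeff_zero (ZMod q)
  have hu_ne : u ≠ 0 := h4S_ne_zero (ZMod q)
  have hw1 : w.coeff (-1) = -1 := by
    rw [hw, theta_coeff, hu1]
    simp
  have hw0 : w.coeff 0 = 0 := by
    rw [hw, theta_coeff]
    simp
  have hwq : w ^ q = u ^ (q - 1) * w := by
    have := sub_eq_zero.mp hθ.symm
    exact this
  have hq1 : q - 1 + 1 = q := Nat.sub_add_cancel hq.one_le
  -- `c = w / u` is fixed by Frobenius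
  set c : LaurentSeries (ZMod q) := w / u with hc
  have hcu : c * u = w := div_mul_cancel₀ w hu_ne
  have hcq : c ^ q = c := by
    have hpow : ∀ x : LaurentSeries (ZMod q), x ^ q = x ^ (q - 1) * x := by
      intro x
      rw [← pow_succ, hq1]
    have h1 : c ^ q * u ^ q = c * u ^ q := by
      rw [← mul_pow, hcu, hwq, ← hcu, hpow u]
      ring
    exact mul_right_cancel₀ (pow_ne_zero q hu_ne) h1
  have hfix : qExpand (ZMod q) q c = c := by
    rw [← Fermat.Agent.H42.laurent_pow_eq_qExpand, hcq]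
  have hC := eq_C_of_qExpand_eq q hq.two_le c hfix
  set a : ZMod q := c.coeff 0 with ha
  have hwa : ∀ n : ℤ, w.coeff n = a * u.coeff n := by
    intro n
    rw [← hcu, hC, HahnSeries.C_mul_eq_smul, HahnSeries.coeff_smul, smul_eq_mul]
  have ha1 : a = -1 := by
    have := hwa (-1)
    rw [hw1, hu1, mul_one] at this
    exact this.symm
  have h8 : (8 : ZMod q) = 0 := by
    have := hwa 0
    rw [hw0, hu0, ha1] at this
    have h' : (0 : ZMod q) = 8 := by rw [this]; ring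
    exact h'.symm
  have h8' : ((8 : ℕ) : ZMod q) = 0 := by exact_mod_cast h8
  have hdvd : q ∣ 8 := (ZMod.natCast_eq_zero_iff 8 q).mp h8'
  have hdvd2 : q ∣ 2 := hq.dvd_of_dvd_pow (show q ∣ 2 ^ 3 by norm_num; exact hdvd)
  exact hq2 ((Nat.prime_dvd_prime_iff_eq hq Nat.prime_two).mp hdvd2)

/-- **SS2-C1-RED.** -/
theorem modelRed (q : ℕ) [NeZero q] [Fact q.Prime] : ModelRedStatement q := by
  intro hq2
  have hq : q.Prime := Fact.out
  have hnd : ¬ (q : ℤ) ∣ (-1 : ℤ) := not_dvd_neg_one hq.two_le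
  haveI : Fact (1 < q) := ⟨hq.one_lt⟩
  have hH1 : (sH1 ℤ q ^ q).coeff (-1) = 0 := by
    unfold sH1
    rw [← map_pow]
    exact qExpand_coeff_of_not_dvd q _ hnd
  have hH2 : (sH2 ℤ q).coeff (-1) = 0 := by
    unfold sH2
    exact qExpand_coeff_of_not_dvd q _ hnd
  refine ⟨?_, ?_, ?_⟩
  · intro h
    have h1 := congrArg (fun z : LaurentSeries (ZMod q) => z.coeff (-1)) h
    simp only [coeffMap_coeff, HahnSeries.coeff_zero] at h1
    have hc : (sY1 ℤ q).coeff (-1) = 1 := by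
      unfold sY1 sH
      rw [HahnSeries.coeff_sub, h4S_coeff_neg_one, hH1, sub_zero]
    rw [hc] at h1
    simp at h1
  · intro h
    have h1 := congrArg (fun z : LaurentSeries (ZMod q) => z.coeff (-1)) h
    simp only [coeffMap_coeff, HahnSeries.coeff_zero] at h1
    have hc : (sZ ℤ q).coeff (-1) = -1 := by
      unfold sZ sH
      rw [HahnSeries.coeff_sub, h4S_coeff_neg_one, hH2, zero_sub]
    rw [hc] at h1
    simp at h1
  · obtain ⟨δ, hδ⟩ := exists_delta q (h4S ℤ)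
    refine ⟨δ, ?_, ?_, redQ_delta_ne_zero q hq2 δ hδ⟩
    · unfold sX1 sH1 sH
      rw [hδ, add_sub_cancel_left, zsmul_eq_mul]
      simp
    · unfold sX2 sH2 sH1
      rw [← map_pow, ← map_sub, hδ, add_sub_cancel_left, zsmul_eq_mul, map_mul]
      simp

end

end Fermat.Agent.H90.SS2Red
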